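import Fermat.Agent.S35.G.Spec
import Fermat.Agent.Ribet.H801.DegBeta

/-!
# S35, piece (G') — leaf DEG (helper510)

`deg : DegStatement` (exact frozen `Prop` of `Fermat/Agent/S35/G/Spec.lean`).

The degeneracy push-forwards `degA`, `degB` of the spec are the push-forwards `alphaPush`,
`betaPush` of helper801's RIBET / W-DEG library (`Fermat/Agent/Ribet/H801/Deg{Alpha,Beta}.lean`),
whose commutation with the Hecke operators `T_ℓ`, `ℓ ≠ q`, is proved there through the common cover
`F_{M q ℓ}` (base change for the `αα`- and `ββ`-squares).  The inputs of `pic0Push` are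
`Lib/HI/H864`.
-/

set_option autoImplicit false
set_option linter.style.haveILetI false

noncomputable section

namespace Fermat.Agent.S35.G.H510

open ModularCurve AlgebraicCurve
open Fermat.Agent.Lib.HI
open Fermat.Agent.Ribet.H801

variable (M q : ℕ) [NeZero M] [NeZero q]

/-- The inputs of `pic0Push` for `α`. -/
theorem pushInputs_alpha : PushInputs (heckeAlphaBar Qb M q) :=
  ⟨H864.heckeAlphaBarIntegral M q, H864.finiteAlong_alpha M q,
    H864.normFormulaAlong_alpha M q _⟩

/-- The inputs of `pic0Push` for `β`. -/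
theorem pushInputs_beta : PushInputs (heckeBetaBar Qb M q) :=
  ⟨H864.heckeBetaBarIntegral M q, H864.finiteAlong_beta M q,
    H864.normFormulaAlong_beta M q _⟩

/-- `degA` is helper801's `alphaPush`. -/
theorem degA_eq_alphaPush : degA M q = alphaPush M q := by
  unfold degA
  rw [pic0PushTotal_eq (heckeAlphaBar Qb M q) (H864.heckeAlphaBarIntegral M q)
    (H864.finiteAlong_alpha M q) (H864.normFormulaAlong_alpha M q _)]
  rfl

/-- `degB` is helper801's `betaPush`. -/
theorem degB_eq_betaPush : degB M q = betaPush M q := by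
  unfold degB
  rw [pic0PushTotal_eq (heckeBetaBar Qb M q) (H864.heckeBetaBarIntegral M q)
    (H864.finiteAlong_beta M q) (H864.normFormulaAlong_beta M q _)]
  rfl

/-- `degA` commutes with `T_ℓ`, `ℓ ≠ q`. -/
theorem degA_heckeOperatorBar (hq : q.Prime) (ℓ : Nat.Primes) (hne : (ℓ : ℕ) ≠ q)
    (x : JZero (M * q)) :
    degA M q (heckeOperatorBar (M * q) ℓ x) = heckeOperatorBar M ℓ (degA M q x) := by
  rw [degA_eq_alphaPush]
  exact alphaPush_heckeOperatorBar M q hq ℓ hne x

/-- `degB` commutes with `T_ℓ`, `ℓ ≠ q`. -/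
theorem degB_heckeOperatorBar (hq : q.Prime) (ℓ : Nat.Primes) (hne : (ℓ : ℕ) ≠ q)
    (x : JZero (M * q)) :
    degB M q (heckeOperatorBar (M * q) ℓ x) = heckeOperatorBar M ℓ (degB M q x) := by
  rw [degB_eq_betaPush]
  exact betaPush_heckeOperatorBar M q hq ℓ hne x

/-- **Leaf DEG** (exact frozen statement). -/
theorem deg : DegStatement := by
  intro M q _ _ hq _
  have hne : ∀ ℓ : Nat.Primes, ¬ (ℓ : ℕ) ∣ M * q → (ℓ : ℕ) ≠ q := fun ℓ hℓ h =>
    hℓ (h ▸ dvd_mul_left (ℓ : ℕ) M)
  exact ⟨pushInputs_alpha M q, pushInputs_beta M q,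
    fun ℓ hℓ x => degA_heckeOperatorBar M q hq ℓ (hne ℓ hℓ) x,
    fun ℓ hℓ x => degB_heckeOperatorBar M q hq ℓ (hne ℓ hℓ) x⟩

end Fermat.Agent.S35.G.H510

end
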